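import Fermat.Agent.FivePrimeCubes.Main

/-!
# Necessity, and the density

The cube of a prime above `7` is `±1` modulo `9` and `7` and odd, so a sum of five of them is
admissible; the admissible numbers have density `2/7`.
-/

set_option autoImplicit false

noncomputable section

namespace FA.FivePrimeCubes

open Finset Filter Topology

/-- `N` is a sum of five cubes of primes above `7`. -/
def IsFivePrimeCubes (N : ℕ) : Prop :=
  ∃ z : Fin 5 → ℕ, (∀ i, (z i).Prime ∧ 7 < z i) ∧ ∑ i, z i ^ 3 = N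

theorem cube_mod_of_prime_gt {p : ℕ} (hp : p.Prime) (h7 : 7 < p) :
    p ^ 3 % 2 = 1 ∧ (p ^ 3 % 7 = 1 ∨ p ^ 3 % 7 = 6) ∧ (p ^ 3 % 9 = 1 ∨ p ^ 3 % 9 = 8) := by
  have hd : ∀ d : ℕ, 2 ≤ d → d ≤ 7 → p % d ≠ 0 := fun d hd2 hd7 h =>
    absurd ((Nat.prime_dvd_prime_iff_eq (Nat.minFac_prime (show d ≠ 1 by omega)) hp).1
      ((Nat.minFac_dvd d).trans (Nat.dvd_of_mod_eq_zero h)))
      (by have := Nat.minFac_le (show 0 < d by omega); omega)
  have h2 := hd 2 (by norm_num) (by norm_num)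
  have h3 := hd 3 (by norm_num) (by norm_num)
  have h7' := hd 7 (by norm_num) le_rfl
  have a7 : p % 7 < 7 := Nat.mod_lt _ (by norm_num)
  have a9 : p % 9 < 9 := Nat.mod_lt _ (by norm_num)
  refine ⟨?_, ?_, ?_⟩
  · rw [Nat.pow_mod, show p % 2 = 1 by omega]
  · rw [Nat.pow_mod]
    interval_cases h : p % 7 <;> simp_all
  · rw [Nat.pow_mod]
    interval_cases h : p % 9 <;> first | (simp_all; done) | (exfalso; omega)

/-- **The congruences are necessary.** -/
theorem isAdmissible_of_five_prime_cubes {N : ℕ} (h : IsFivePrimeCubes N) : IsAdmissible N := by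
  obtain ⟨z, hz, rfl⟩ := h
  obtain ⟨a2, a7, a9⟩ := cube_mod_of_prime_gt (hz 0).1 (hz 0).2
  obtain ⟨b2, b7, b9⟩ := cube_mod_of_prime_gt (hz 1).1 (hz 1).2
  obtain ⟨c2, c7, c9⟩ := cube_mod_of_prime_gt (hz 2).1 (hz 2).2
  obtain ⟨d2, d7, d9⟩ := cube_mod_of_prime_gt (hz 3).1 (hz 3).2
  obtain ⟨e2, e7, e9⟩ := cube_mod_of_prime_gt (hz 4).1 (hz 4).2
  simp only [Fin.sum_univ_five, IsAdmissible]
  refine ⟨by simp [Nat.add_mod, a2, b2, c2, d2, e2], ?_, ?_⟩
  · rcases a7 with a | a <;> rcases b7 with b | b <;> rcases c7 with c | c <;>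
      rcases d7 with d | d <;> rcases e7 with e | e <;> simp [Nat.add_mod, a, b, c, d, e]
  · rcases a9 with a | a <;> rcases b9 with b | b <;> rcases c9 with c | c <;>
      rcases d9 with d | d <;> rcases e9 with e | e <;> simp [Nat.add_mod, a, b, c, d, e]

set_option maxRecDepth 10000 in
open Classical in
theorem card_admissible_block :
    ∀ q : ℕ, ((range (q * 126)).filter fun N => IsAdmissible N).card = q * 36 := by
  have h0 : ((range 126).filter fun N : ℕ =>
      N % 2 = 1 ∧ N % 7 ≠ 0 ∧ N % 9 ≠ 0 ∧ N % 9 ≠ 2 ∧ N % 9 ≠ 7).card = 36 := by decide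
  intro q
  induction q with
  | zero => simp
  | succ q ih =>
    rw [card_filter, add_mul, one_mul, sum_range_add, ← card_filter, ih, add_mul, one_mul]
    rw [Nat.add_left_cancel_iff, ← h0, card_filter]
    refine sum_congr rfl fun i _ => ?_
    simp only [IsAdmissible, show (q * 126 + i) % 2 = i % 2 by omega,
      show (q * 126 + i) % 7 = i % 7 by omega, show (q * 126 + i) % 9 = i % 9 by omega]

open Classical in
/-- The exceptions are `o (X)`. -/
theorem eventually_exceptions_le {ε : ℝ} (hε : 0 < ε) : ∀ᶠ X : ℕ in atTop,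
    (((Ioc 0 X).filter fun N => IsAdmissible N ∧ ¬IsFivePrimeCubes N).card : ℝ) ≤ ε * X := by
  obtain ⟨c, hc, h⟩ := exists_few_representations
  obtain ⟨C, hC, hex⟩ := h 1
  filter_upwards [eventually_ge_atTop 2,
    (Real.tendsto_log_atTop.comp tendsto_natCast_atTop_atTop).eventually_ge_atTop (C / ε)]
    with X hX hl
  simp only [Function.comp_apply] at hl
  have hL0 : 0 < Real.log X := Real.log_pos (Nat.one_lt_cast.2 (by omega))
  refine (le_trans (Nat.cast_le.2 (card_le_card fun N hN => ?_)) (hex X hX)).trans ?_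
  · rw [mem_filter, mem_Ioc] at hN
    rw [mem_filter, mem_Icc]
    refine ⟨⟨hN.1.1, hN.1.2⟩, hN.2.1, ?_⟩
    rw [card_eq_zero.2 (filter_eq_empty_iff.2 fun z _ h => hN.2.2 ⟨z, h.1, h.2⟩), Nat.cast_zero,
      zero_mul]
    exact mul_pos hc (Real.rpow_pos_of_pos (Nat.cast_pos.2 hN.1.1) _)
  · rw [pow_one, mul_div_assoc', div_le_iff₀ hL0]
    rw [div_le_iff₀ hε] at hl
    have := mul_le_mul_of_nonneg_right hl (Nat.cast_nonneg (α := ℝ) X)
    linarith

open Classical in
/-- **The sums of five cubes of primes above `7` have density `2/7`.** -/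
theorem tendsto_five_prime_cubes_density : Tendsto (fun X : ℕ =>
    (((Ioc 0 X).filter fun N => IsFivePrimeCubes N).card : ℝ) / X) atTop (𝓝 (2 / 7)) := by
  rw [Metric.tendsto_nhds]
  intro ε hε
  filter_upwards [eventually_exceptions_le (show 0 < ε / 4 by positivity), eventually_ge_atTop 1,
    tendsto_natCast_atTop_atTop.eventually_ge_atTop (4 * 127 / ε)] with X h1 hX hXε
  have hX0 : (0 : ℝ) < X := Nat.cast_pos.2 hX
  obtain ⟨R, hR⟩ : ∃ R : Finset ℕ, R = (Ioc 0 X).filter fun N => IsFivePrimeCubes N := ⟨_, rfl⟩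
  obtain ⟨A, hA⟩ : ∃ A : Finset ℕ, A = (Ioc 0 X).filter fun N => IsAdmissible N := ⟨_, rfl⟩
  obtain ⟨E, hE⟩ : ∃ E : Finset ℕ, E = (Ioc 0 X).filter fun N =>
    IsAdmissible N ∧ ¬IsFivePrimeCubes N := ⟨_, rfl⟩
  rw [← hR]
  rw [← hE] at h1
  have hRA : R.card ≤ A.card := card_le_card fun N hN => by
    rw [hR, mem_filter] at hN
    rw [hA, mem_filter]
    exact ⟨hN.1, isAdmissible_of_five_prime_cubes hN.2⟩
  have hAR : A.card ≤ R.card + E.card := by
    refine (card_le_card fun N hN => ?_).trans (card_union_le R E)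
    rw [hA, mem_filter] at hN
    rw [mem_union, hR, hE, mem_filter, mem_filter]
    by_cases h : IsFivePrimeCubes N
    · exact Or.inl ⟨hN.1, h⟩
    · exact Or.inr ⟨hN.1, hN.2, h⟩
  have hA' : A = (range (X + 1)).filter fun N => IsAdmissible N := by
    ext N
    simp only [hA, mem_filter, mem_Ioc, mem_range, IsAdmissible]
    constructor <;> rintro ⟨h, h'⟩ <;> exact ⟨by omega, h'⟩
  have hlo : X / 126 * 36 ≤ A.card := by
    rw [hA', ← card_admissible_block]
    exact card_le_card (filter_subset_filter _ (range_subset_range.2 (by omega)))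
  have hhi : A.card ≤ (X / 126 + 1) * 36 := by
    rw [hA', ← card_admissible_block]
    exact card_le_card (filter_subset_filter _ (range_subset_range.2 (by omega)))
  have hRA' : (R.card : ℝ) ≤ A.card := by exact_mod_cast hRA
  have hAR' : (A.card : ℝ) ≤ R.card + E.card := by exact_mod_cast hAR
  have hlo' : 2 * (X : ℝ) ≤ 7 * (A.card : ℝ) + 2 * 126 := by
    exact_mod_cast (show 2 * X ≤ 7 * A.card + 2 * 126 by omega)
  have hhi' : 7 * (A.card : ℝ) ≤ 2 * X + 7 * 36 := by
    exact_mod_cast (show 7 * A.card ≤ 2 * X + 7 * 36 by omega)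
  rw [div_le_iff₀ hε] at hXε
  rw [Real.dist_eq, abs_lt, lt_sub_iff_add_lt, sub_lt_iff_lt_add, lt_div_iff₀ hX0,
    div_lt_iff₀ hX0]
  constructor <;> nlinarith

end FA.FivePrimeCubes
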