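import Fermat.Agent.FivePrimeCubes.Circle
import Fermat.Agent.ThreePrimes.Main

/-!
# Almost all admissible numbers are sums of five cubes of primes

For `N ≥ X / (log X) ^ A` the weighted number of representations by primes above `7` is within
`η N ^ (2/3)` of the main term unless the deviation or the part with a prime power or a small prime
is large, and both happen for `O (X / (log X) ^ A)` numbers.
-/

set_option autoImplicit false

noncomputable section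

namespace FA.FivePrimeCubes

open Finset ArithmeticFunction Filter Topology
open FA.WaringGoldbach (primeRep primeTerm primeSeries repConst repConst_pos)
open FA.ThreePrimes (powerPart sum_powerPart_le sum_vonMangoldt_le)
open FA.WaringAsymptotic (rootFloor weightConv)

/-- `X ^ (1/3)`. -/
def cubeScale (X : ℕ) : ℝ := (X : ℝ) ^ (1 / 3 : ℝ)

theorem cubeScale_spec {X : ℕ} (hX : 1 ≤ X) :
    1 ≤ cubeScale X ∧ cubeScale X ^ 3 = X ∧ (X : ℝ) ^ (2 / 3 : ℝ) = cubeScale X ^ 2 ∧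
      (rootFloor 3 X : ℝ) ≤ cubeScale X := by
  have hX1 : (1 : ℝ) ≤ X := by exact_mod_cast hX
  have h3 : cubeScale X ^ 3 = X := by
    rw [cubeScale, ← Real.rpow_natCast, ← Real.rpow_mul (Nat.cast_nonneg X)]
    norm_num
  refine ⟨Real.one_le_rpow hX1 (by norm_num), h3, ?_, ?_⟩
  · rw [cubeScale, ← Real.rpow_natCast, ← Real.rpow_mul (Nat.cast_nonneg X)]
    norm_num
  · refine le_of_pow_le_pow_left₀ three_ne_zero (Real.rpow_nonneg (Nat.cast_nonneg X) _) ?_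
    rw [h3]
    exact_mod_cast (cubeRootFacts hX).2.1

/-- **The singular integral.** -/
theorem exists_fiveConv_asymptotic : ∃ C : ℝ, 0 < C ∧ ∀ N : ℕ, 1 ≤ N →
    |weightConv (1 / ((3 : ℕ) : ℝ)) 5 N - repConst 3 5 * (N : ℝ) ^ (2 / 3 : ℝ)| ≤ C := by
  obtain ⟨Y, hY⟩ : ∃ Y : ℝ, Y = 2 / 3 := ⟨_, rfl⟩
  obtain ⟨G, hG⟩ : ∃ G : ℝ, G = repConst 3 5 := ⟨_, rfl⟩
  obtain ⟨W, hW⟩ : ∃ W : ℝ, W = Real.Gamma (1 + 1 / ((3 : ℕ) : ℝ)) ^ 5 := ⟨_, rfl⟩
  have hG0 : 0 < G := hG ▸ repConst_pos (by norm_num) (by norm_num)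
  have hW0 : 0 < W := hW ▸ pow_pos (Real.Gamma_pos_of_pos (by norm_num)) 5
  refine ⟨G * 6 + W, by positivity, fun N hN => ?_⟩
  rw [← hY, ← hG]
  have hY0 : 0 ≤ Y := by linarith
  have hY1 : Y ≤ 1 := by linarith
  have hsmall : ∀ x : ℝ, 0 ≤ x → x ≤ 6 → x ^ Y ≤ 6 := fun x hx hx6 =>
    (Real.rpow_le_rpow hx hx6 hY0).trans (Real.rpow_le_self_of_one_le (by norm_num) hY1)
  rcases Nat.lt_or_ge N 6 with h | h
  · have h0 : 0 ≤ weightConv (1 / ((3 : ℕ) : ℝ)) 5 N ∧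
        weightConv (1 / ((3 : ℕ) : ℝ)) 5 N ≤ W := by
      rcases Nat.lt_or_ge N 5 with h' | h'
      · rw [WaringAsymptotic.weightConv_of_lt h']
        exact ⟨le_rfl, hW0.le⟩
      · rw [WaringAsymptotic.weightConv_eq (by norm_num) h', show N - 5 = 0 by omega,
          show WaringAsymptotic.negBinom (((5 : ℕ) : ℝ) * (1 / ((3 : ℕ) : ℝ))) 0 = 1 from rfl,
          mul_one, ← hW]
        exact ⟨hW0.le, le_rfl⟩
    have h1 := mul_le_mul_of_nonneg_left (hsmall N (Nat.cast_nonneg N)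
      (by exact_mod_cast h.le)) hG0.le
    have h2 : 0 ≤ G * (N : ℝ) ^ Y := by positivity
    rw [abs_le]
    constructor <;> linarith
  obtain ⟨n, hn⟩ : ∃ n, n = N - 5 := ⟨_, rfl⟩
  have hn1 : (1 : ℝ) ≤ n := by exact_mod_cast (show 1 ≤ n by omega)
  have hnN : (n : ℝ) + 5 = N := by exact_mod_cast (show n + 5 = N by omega)
  have e : weightConv (1 / ((3 : ℕ) : ℝ)) 5 N =
      G * (Real.Gamma ((n : ℝ) + 1 + Y) / Real.Gamma ((n : ℝ) + 1)) := by
    have h5 : ((5 : ℕ) : ℝ) * (1 / ((3 : ℕ) : ℝ)) = 1 + Y := by rw [hY]; norm_num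
    rw [WaringAsymptotic.weightConv_eq (by norm_num) (by omega), ← hn, hG, repConst,
      show ((5 : ℕ) : ℝ) / ((3 : ℕ) : ℝ) = 1 + Y by rw [hY]; norm_num, h5,
      show (n : ℝ) + 1 + Y = n + (1 + Y) by ring,
      ← WaringAsymptotic.negBinom_mul_Gamma (by linarith : 0 < 1 + Y) n,
      Real.Gamma_nat_eq_factorial]
    have := (Real.Gamma_pos_of_pos (by linarith : 0 < 1 + Y)).ne'
    have : (n.factorial : ℝ) ≠ 0 := Nat.cast_ne_zero.2 n.factorial_ne_zero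
    field_simp
  obtain ⟨hlo, hhi⟩ := WaringAsymptotic.Gamma_ratio_bounds (a := (n : ℝ) + 1) (Y := Y)
    (by linarith) hY0
  rw [add_sub_cancel_right] at hlo
  have hg := Real.Gamma_pos_of_pos (show 0 < (n : ℝ) + 1 by linarith)
  obtain ⟨R, hR⟩ : ∃ R, R = Real.Gamma ((n : ℝ) + 1 + Y) / Real.Gamma ((n : ℝ) + 1) := ⟨_, rfl⟩
  have hlo' : (n : ℝ) ^ Y ≤ R := hR ▸ (le_div_iff₀ hg).2 hlo
  have hhi' : R ≤ ((n : ℝ) + 1 + Y) ^ Y := hR ▸ (div_le_iff₀ hg).2 hhi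
  have h1 := Real.rpow_add_le_add_rpow (show (0 : ℝ) ≤ n by linarith) (show (0 : ℝ) ≤ 5 by norm_num)
    hY0 hY1
  have h2 := Real.rpow_add_le_add_rpow (show (0 : ℝ) ≤ N by linarith)
    (show (0 : ℝ) ≤ 1 + Y by linarith) hY0 hY1
  have h3 : ((n : ℝ) + 1 + Y) ^ Y ≤ ((N : ℝ) + (1 + Y)) ^ Y :=
    Real.rpow_le_rpow (by linarith) (by linarith) hY0
  rw [hnN] at h1
  have h4 := hsmall 5 (by norm_num) (by norm_num)
  have h5 := hsmall (1 + Y) (by linarith) (by linarith)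
  rw [e, ← hR, ← mul_sub, abs_mul, abs_of_pos hG0]
  have h6 : |R - (N : ℝ) ^ Y| ≤ 6 := by
    rw [abs_le]
    constructor <;> linarith
  have := mul_le_mul_of_nonneg_left h6 hG0.le
  linarith

/-- `Λ` on the primes above `7`. -/
def bigPrimes (n : ℕ) : ℝ := if n.Prime ∧ 7 < n then Λ n else 0

theorem bigPrimes_nonneg (n : ℕ) : 0 ≤ bigPrimes n := by
  unfold bigPrimes
  split_ifs
  exacts [vonMangoldt_nonneg, le_rfl]

theorem bigPrimes_le (n : ℕ) : bigPrimes n ≤ Λ n := by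
  unfold bigPrimes
  split_ifs
  exacts [le_rfl, vonMangoldt_nonneg]

theorem primeRep_bigPrimes_le (N : ℕ) : primeRep 3 5 bigPrimes N ≤ primeRep 3 5 Λ N :=
  sum_le_sum fun _ _ => prod_le_prod (fun _ _ => bigPrimes_nonneg _) fun _ _ => bigPrimes_le _

/-- The representations that use a prime power or a prime `≤ 7`. -/
theorem sum_primeRep_sub_big_le {X P : ℕ} (hP : P = rootFloor 3 X) (hX : 1 ≤ X)
    (hl : 1 ≤ Real.log P) :
    ∑ N ∈ Icc 1 X, (primeRep 3 5 Λ N - primeRep 3 5 bigPrimes N) ≤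
      5 * (6 * (P : ℝ)) ^ 4 * (50 * (√(P : ℝ) * Real.log P)) := by
  classical
  obtain ⟨f, hf⟩ : ∃ f : (Fin 5 → ℕ) → ℝ,
      f = fun z => ∏ i, Λ (z i) - ∏ i, bigPrimes (z i) := ⟨_, rfl⟩
  have hf0 : ∀ z, 0 ≤ f z := fun z => by
    rw [hf]
    exact sub_nonneg.2 (prod_le_prod (fun i _ => bigPrimes_nonneg _) fun i _ => bigPrimes_le _)
  obtain ⟨hP1, -, hXP, -⟩ := cubeRootFacts hX
  rw [← hP] at hP1 hXP
  obtain ⟨B, hB⟩ : ∃ B, B = Fintype.piFinset fun _ : Fin 5 => Icc 1 P := ⟨_, rfl⟩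
  have h1 : ∑ N ∈ Icc 1 X, (primeRep 3 5 Λ N - primeRep 3 5 bigPrimes N) ≤ ∑ z ∈ B, f z := by
    refine le_trans (le_of_eq (sum_congr rfl fun N hN => ?_))
      ((sum_fiberwise_le_sum_of_sum_fiber_nonneg (g := fun z => ∑ i, z i ^ 3)
        (t := Icc 1 X) (s := B) (f := f) fun N _ => sum_nonneg fun z _ => hf0 z))
    rw [primeRep, primeRep, ← sum_sub_distrib, hf, hB]
    refine sum_congr (ext fun z => ?_) fun _ _ => rfl
    simp only [mem_filter, Fintype.mem_piFinset, mem_Icc]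
    rw [mem_Icc] at hN
    refine ⟨fun h => ⟨fun i => ⟨(h.1 i).1, ?_⟩, h.2⟩, fun h => ⟨fun i => ⟨(h.1 i).1, ?_⟩, h.2⟩⟩
    · by_contra hlt
      have h3 := Nat.pow_le_pow_left (show P + 1 ≤ z i by omega) 3
      have h4 := single_le_sum (f := fun j => z j ^ 3) (fun j _ => Nat.zero_le _) (mem_univ i)
      have h5 := h.2
      omega
    · have h4 := single_le_sum (f := fun j => z j ^ 3) (fun j _ => Nat.zero_le _) (mem_univ i)
      exact (Nat.le_self_pow (by omega) _).trans (h4.trans h.2.le)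
  refine h1.trans ?_
  rw [hf, sum_sub_distrib, hB, sum_prod_piFinset, sum_prod_piFinset,
    prod_const, prod_const, card_univ, Fintype.card_fin]
  obtain ⟨a, ha⟩ : ∃ a, a = ∑ m ∈ Icc 1 P, Λ m := ⟨_, rfl⟩
  obtain ⟨b, hb⟩ : ∃ b, b = ∑ m ∈ Icc 1 P, bigPrimes m := ⟨_, rfl⟩
  rw [← ha, ← hb]
  have hb0 : 0 ≤ b := hb ▸ sum_nonneg fun m _ => bigPrimes_nonneg m
  have hba : b ≤ a := hb ▸ ha ▸ sum_le_sum fun m _ => bigPrimes_le m
  have ha6 : a ≤ 6 * (P : ℝ) := ha ▸ (sum_vonMangoldt_le P : _)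
  have hPr : (1 : ℝ) ≤ √(P : ℝ) := Real.one_le_sqrt.2 (by exact_mod_cast hP1)
  have hab : a - b ≤ 50 * (√(P : ℝ) * Real.log P) := by
    have h3 : a - b ≤ ∑ m ∈ Icc 1 P, (powerPart m + if m ≤ 7 then Λ m else 0) := by
      rw [ha, hb, ← sum_sub_distrib]
      refine sum_le_sum fun m _ => ?_
      have hΛ : 0 ≤ Λ m := vonMangoldt_nonneg
      unfold bigPrimes powerPart
      split_ifs <;> first | linarith | (exfalso; simp_all; try omega)
    refine h3.trans ?_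
    rw [sum_add_distrib, ← sum_filter]
    have h4 : ∑ m ∈ (Icc 1 P).filter (fun m => m ≤ 7), Λ m ≤ 42 := by
      refine (sum_le_sum_of_subset_of_nonneg (t := Ioc 0 7) (fun m hm => ?_)
        fun m _ _ => vonMangoldt_nonneg).trans ((sum_vonMangoldt_le 7).trans (by norm_num))
      simp only [mem_filter, mem_Icc, mem_Ioc] at hm ⊢
      omega
    have h5 : 1 ≤ √(P : ℝ) * Real.log P := one_le_mul_of_one_le_of_one_le hPr hl
    have h6 := sum_powerPart_le hP1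
    linarith
  refine (le_abs_self _).trans ((abs_pow_sub_pow_le a b 5).trans ?_)
  rw [abs_of_nonneg (sub_nonneg.2 hba), abs_of_nonneg (hb0.trans hba),
    abs_of_nonneg hb0, max_eq_left hba, mul_comm (a - b), mul_right_comm]
  exact mul_le_mul (mul_le_mul_of_nonneg_left (pow_le_pow_left₀ (hb0.trans hba) ha6 4)
    (Nat.cast_nonneg _)) hab (sub_nonneg.2 hba) (by positivity)

/-- The main term. -/
def fiveMain (N : ℕ) : ℝ := primeSeries 3 5 N * repConst 3 5 * (N : ℝ) ^ (2 / 3 : ℝ)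

/-- The partial sum against the main term. -/
theorem exists_main_close {η : ℝ} (hη : 0 < η) : ∃ Q₀ N₀ : ℕ, ∀ N Q : ℕ, N₀ ≤ N → Q₀ ≤ Q →
    |primeRep 3 5 Λ N - fiveMain N| ≤ fiveDeviation Q N + η * (N : ℝ) ^ (2 / 3 : ℝ) := by
  obtain ⟨C₆, hC₆, hconv⟩ := exists_fiveConv_asymptotic
  obtain ⟨G, hG⟩ : ∃ G, G = repConst 3 5 + C₆ := ⟨_, rfl⟩
  have hrc : 0 < repConst 3 5 := repConst_pos (by norm_num) (by norm_num)
  have hG0 : 0 < G := by rw [hG]; linarith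
  obtain ⟨Z₀, hZ₀⟩ : ∃ Z₀ : ℝ, Z₀ = ∑' q, WaringGoldbach.primeAbs 3 5 q := ⟨_, rfl⟩
  have hZ₀0 : 0 ≤ Z₀ := hZ₀ ▸ tsum_nonneg (WaringGoldbach.primeAbs_nonneg 3 5)
  obtain ⟨Q₀, hQ₀⟩ := exists_series_tail (ε := η / (2 * G)) (by positivity)
  obtain ⟨N₁, hN₁⟩ := eventually_atTop.1 (((tendsto_rpow_atTop (show (0 : ℝ) < 2 / 3 by
    norm_num)).comp tendsto_natCast_atTop_atTop).eventually_ge_atTop (2 * C₆ * Z₀ / η))
  refine ⟨Q₀, max 1 N₁, fun N Q hN hQ => ?_⟩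
  have hNY := hN₁ N (le_trans (le_max_right _ _) hN)
  simp only [Function.comp_apply] at hNY
  have hN1 : (1 : ℝ) ≤ N := by exact_mod_cast le_trans (le_max_left _ _) hN
  obtain ⟨V, hV⟩ : ∃ V, V = (N : ℝ) ^ (2 / 3 : ℝ) := ⟨_, rfl⟩
  rw [← hV] at hNY ⊢
  have hV1 : 1 ≤ V := hV ▸ Real.one_le_rpow hN1 (by norm_num)
  obtain ⟨J, hJ⟩ : ∃ J, J = weightConv (1 / ((3 : ℕ) : ℝ)) 5 N := ⟨_, rfl⟩
  have hJe := hconv N (le_trans (le_max_left _ _) hN)
  rw [← hJ, ← hV] at hJe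
  obtain ⟨U, hU⟩ : ∃ U, U = ∑' q, primeTerm 3 5 N q := ⟨_, rfl⟩
  obtain ⟨U₁, hU₁⟩ : ∃ U₁, U₁ = ∑ q ∈ Icc 1 Q, primeTerm 3 5 N q := ⟨_, rfl⟩
  have htail := hQ₀ Q hQ N
  rw [← hU₁, ← hU] at htail
  have hUre : |U.re| ≤ Z₀ := by
    refine (Complex.abs_re_le_norm U).trans ?_
    rw [hU, hZ₀]
    exact tsum_of_norm_bounded summable_primeAbs_five.hasSum
      (WaringGoldbach.norm_primeTerm_le 3 5 N)
  have hr : |primeRep 3 5 Λ N - J * U₁.re| ≤ fiveDeviation Q N := by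
    rw [fiveDeviation, ← hJ, ← hU₁]
    refine le_trans (le_of_eq ?_) (Complex.abs_re_le_norm _)
    simp
  have hJG : |J| ≤ G * V := by
    have h2 := abs_le.1 hJe
    have h3 : C₆ ≤ C₆ * V := le_mul_of_one_le_right hC₆.le hV1
    have h4 : 0 ≤ repConst 3 5 * V := by positivity
    rw [hG, abs_le]
    constructor <;> linarith
  have h2 : |J * U₁.re - J * U.re| ≤ η / 2 * V := by
    rw [← mul_sub, abs_mul]
    refine (mul_le_mul hJG
      (le_trans (le_of_eq (by simp)) ((Complex.abs_re_le_norm _).trans htail))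
      (abs_nonneg _) (by positivity)).trans (le_of_eq ?_)
    field_simp
  have h3 : |J * U.re - repConst 3 5 * V * U.re| ≤ η / 2 * V := by
    rw [← sub_mul, abs_mul]
    refine (mul_le_mul hJe hUre (abs_nonneg _) hC₆.le).trans ?_
    rw [div_le_iff₀ hη] at hNY
    linarith
  have hmain : fiveMain N = repConst 3 5 * V * U.re := by
    rw [fiveMain, primeSeries, ← hU, ← hV]
    ring
  rw [hmain]
  rw [abs_le] at hr h2 h3 ⊢
  constructor <;> linarith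

/-- **The asymptotic formula for almost all `N`.** -/
theorem exists_relative_exceptions (A : ℕ) {η : ℝ} (hη : 0 < η) : ∃ C : ℝ, 0 < C ∧
    ∀ X : ℕ, 2 ≤ X → (((Icc 1 X).filter fun N : ℕ => η * (N : ℝ) ^ (2 / 3 : ℝ) <
      |primeRep 3 5 bigPrimes N - fiveMain N|).card : ℝ) ≤ C * (X / Real.log X ^ A) := by
  classical
  obtain ⟨K, X₁, C₁, hK, hC₁, hsq⟩ := exists_deviation_le (3 * A)
  obtain ⟨Q₀, N₀, hclose⟩ := exists_main_close (η := η / 2) (by positivity)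
  obtain ⟨K₀, hK₀, hpow⟩ := ThreePrimes.exists_log_pow_le (2 * A + 1)
  obtain ⟨T, hT⟩ : ∃ T : ℕ, T = max (max X₁ 8) ⌈Real.exp (6 * ((Q₀ : ℝ) + 2))⌉₊ := ⟨_, rfl⟩
  obtain ⟨J₀, hJ₀⟩ : ∃ J₀ : ℝ, J₀ = Real.log T ^ A := ⟨_, rfl⟩
  have hJ₀0 : 0 ≤ J₀ := hJ₀ ▸ pow_nonneg (Real.log_natCast_nonneg _) A
  obtain ⟨K₁, hK₁, hpow₁⟩ := ThreePrimes.exists_log_pow_le A
  obtain ⟨c₁, hc₁⟩ : ∃ c₁ : ℝ, c₁ = 16 / η ^ 2 * (C₁ * 6 ^ (3 * A)) := ⟨_, rfl⟩
  obtain ⟨c₂, hc₂⟩ : ∃ c₂ : ℝ, c₂ = 4 / η * (5 * 6 ^ 4 * 50 * K₀ * 6 ^ (2 * A)) := ⟨_, rfl⟩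
  refine ⟨c₁ + c₂ + ((N₀ : ℝ) * K₁ + 1) + J₀, by rw [hc₁, hc₂]; positivity, fun X hX => ?_⟩
  obtain ⟨S, hS⟩ : ∃ S, S = (Icc 1 X).filter fun N : ℕ => η * (N : ℝ) ^ (2 / 3 : ℝ) <
    |primeRep 3 5 bigPrimes N - fiveMain N| := ⟨_, rfl⟩
  rw [← hS]
  obtain ⟨L, hL⟩ : ∃ L, L = Real.log X := ⟨_, rfl⟩
  have hX0 : (0 : ℝ) < X := Nat.cast_pos.2 (by omega)
  have hL0 : 0 < L := hL ▸ Real.log_pos (Nat.one_lt_cast.2 (by omega))
  rw [← hL]
  obtain ⟨D, hD⟩ : ∃ D : ℝ, D = X / L ^ A := ⟨_, rfl⟩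
  rw [← hD]
  have hD0 : 0 ≤ D := by rw [hD]; positivity
  have hc₁0 : 0 ≤ c₁ := by rw [hc₁]; positivity
  have hc₂0 : 0 ≤ c₂ := by rw [hc₂]; positivity
  have hNK : 0 ≤ (N₀ : ℝ) * K₁ := by positivity
  rcases Nat.lt_or_ge X T with hsmall | hbig
  · have h1 : (S.card : ℝ) ≤ X := by
      refine Nat.cast_le.2 ((card_le_card (hS ▸ filter_subset _ _)).trans ?_)
      rw [Nat.card_Icc, Nat.add_sub_cancel]
    refine h1.trans (le_trans ?_ (mul_le_mul_of_nonneg_right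
      (show J₀ ≤ c₁ + c₂ + ((N₀ : ℝ) * K₁ + 1) + J₀ by linarith) hD0))
    rw [hD, mul_div_assoc', le_div_iff₀ (by positivity), mul_comm J₀, hJ₀]
    exact mul_le_mul_of_nonneg_left (pow_le_pow_left₀ hL0.le
      (hL ▸ Real.log_le_log hX0 (Nat.cast_le.2 hsmall.le)) A) hX0.le
  rw [hT] at hbig
  simp only [max_le_iff] at hbig
  have hX1 : 1 ≤ X := by omega
  obtain ⟨hl1, hsq'⟩ := hsq X hbig.1.1
  obtain ⟨hP1, hPX, hXP, hX8⟩ := cubeRootFacts hX1
  obtain ⟨hR1, hR3, hR2, hPR⟩ := cubeScale_spec hX1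
  obtain ⟨P, hP⟩ : ∃ P, P = rootFloor 3 X := ⟨_, rfl⟩
  have hPsum := sum_primeRep_sub_big_le hP hX1
  rw [← hP] at hl1 hsq' hP1 hPX hXP hX8 hPR
  obtain ⟨R, hR⟩ : ∃ R, R = cubeScale X := ⟨_, rfl⟩
  rw [← hR] at hR1 hR3 hR2 hPR
  obtain ⟨l, hl⟩ : ∃ l, l = Real.log P := ⟨_, rfl⟩
  rw [← hl] at hl1 hsq' hPsum
  have hl0 : 0 < l := by linarith
  have hPr : (1 : ℝ) ≤ P := by exact_mod_cast hP1
  have hL1 : 1 ≤ L := by
    rw [hL]
    refine hl1.trans (hl ▸ Real.log_le_log (by linarith) (Nat.cast_le.2 ?_))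
    exact (Nat.le_self_pow three_ne_zero P).trans hPX
  have hLl : L ≤ 6 * l := by
    have h1 := Real.log_le_log hX0 hX8
    rw [Real.log_mul (by norm_num) (by positivity), Real.log_pow, ← hl, ← hL,
      show (8 : ℝ) = 2 ^ 3 by norm_num, Real.log_pow] at h1
    push_cast at h1
    linarith [Real.log_two_lt_d9]
  obtain ⟨Q, hQ⟩ : ∃ Q, Q = ⌊l ^ K⌋₊ := ⟨_, rfl⟩
  rw [← hQ] at hsq'
  have hQ₀Q : Q₀ ≤ Q := by
    refine hQ ▸ Nat.le_floor (le_trans ?_ (le_self_pow₀ hl1 (by omega)))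
    have h1 : 6 * ((Q₀ : ℝ) + 2) ≤ L := by
      rw [hL, Real.le_log_iff_exp_le hX0]
      exact (Nat.le_ceil _).trans (Nat.cast_le.2 hbig.2)
    linarith
  obtain ⟨V, hV⟩ : ∃ V : ℝ, V = η / 4 * (R ^ 2 / L ^ A) := ⟨_, rfl⟩
  have hV0 : 0 < V := by rw [hV]; positivity
  -- an exception of size `≥ X / L ^ A` is a large deviation
  have hsub : S ⊆ Icc 1 (max N₀ ⌊D⌋₊) ∪ ((Icc 1 X).filter (fun N => V ≤ fiveDeviation Q N) ∪
      (Icc 1 X).filter (fun N => V ≤ primeRep 3 5 Λ N - primeRep 3 5 bigPrimes N)) := by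
    intro N hN
    rw [hS, mem_filter, mem_Icc] at hN
    simp only [mem_union, mem_filter, mem_Icc]
    by_cases hsm : N ≤ max N₀ ⌊D⌋₊
    · exact Or.inl ⟨hN.1.1, hsm⟩
    rw [not_le, max_lt_iff] at hsm
    refine Or.inr ?_
    by_contra h
    simp only [hN.1, true_and, not_or, not_le] at h
    have hDN : (X : ℝ) / L ^ A ≤ N := hD ▸ ((Nat.floor_lt hD0).1 hsm.2).le
    have hV' : V ≤ η / 4 * (N : ℝ) ^ (2 / 3 : ℝ) := by
      rw [hV]
      refine mul_le_mul_of_nonneg_left ?_ (by positivity)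
      refine le_trans ?_ (Real.rpow_le_rpow (by positivity) hDN (by norm_num))
      rw [Real.div_rpow hX0.le (by positivity), hR2]
      refine div_le_div_of_nonneg_left (by positivity) (Real.rpow_pos_of_pos (by positivity) _) ?_
      exact Real.rpow_le_self_of_one_le (one_le_pow₀ hL1) (by norm_num)
    have h1 := hclose N Q hsm.1.le hQ₀Q
    have h2 := primeRep_bigPrimes_le N
    have h3 := hN.2
    rw [abs_le] at h1
    rw [lt_abs] at h3
    rcases h3 with h3 | h3 <;> linarith [h.1, h.2]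
  refine (Nat.cast_le.2 ((card_le_card hsub).trans ((card_union_le _ _).trans
    (add_le_add le_rfl (card_union_le _ _))))).trans ?_
  push_cast
  have hPR5 : (P : ℝ) ^ 5 ≤ R ^ 5 := pow_le_pow_left₀ (by linarith) hPR 5
  have hPR7 : (P : ℝ) ^ 7 ≤ R ^ 7 := pow_le_pow_left₀ (by linarith) hPR 7
  have h0 : ((Icc 1 (max N₀ ⌊D⌋₊)).card : ℝ) ≤ ((N₀ : ℝ) * K₁ + 1) * D := by
    rw [Nat.card_Icc, Nat.add_sub_cancel, Nat.cast_max]
    refine max_le ?_ ((Nat.floor_le hD0).trans (le_mul_of_one_le_left hD0 (by linarith)))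
    have h1 : L ^ A ≤ K₁ * X := by
      refine (hL ▸ hpow₁ X (by exact_mod_cast hX1)).trans (mul_le_mul_of_nonneg_left ?_ hK₁.le)
      rw [Real.sqrt_le_left hX0.le]
      have : (1 : ℝ) ≤ X := by exact_mod_cast hX1
      nlinarith
    have h2 : 1 ≤ K₁ * D := by
      rw [hD, mul_div_assoc', one_le_div (by positivity)]
      exact h1
    have := le_mul_of_one_le_right (Nat.cast_nonneg N₀ : (0 : ℝ) ≤ N₀) h2
    linarith
  have h1 : (((Icc 1 X).filter fun N => V ≤ fiveDeviation Q N).card : ℝ) ≤ c₁ * D := by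
    refine le_of_mul_le_mul_right ?_ (pow_pos hV0 2)
    refine le_trans ?_ ((hsq'.trans ?_))
    · rw [← nsmul_eq_mul, ← sum_const]
      exact (sum_le_sum fun N hN => pow_le_pow_left₀ hV0.le (mem_filter.1 hN).2 2).trans
        (sum_le_sum_of_subset_of_nonneg (filter_subset _ _) fun N _ _ => sq_nonneg _)
    · refine (mul_le_mul_of_nonneg_left (div_le_div₀ (d := (L / 6) ^ (3 * A)) (by positivity) hPR7
        (by positivity) ?_) hC₁.le).trans (le_of_eq ?_)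
      · exact pow_le_pow_left₀ (by positivity) (by linarith) _
      · rw [hc₁, hV, hD, ← hR3, div_pow, pow_mul' L 3 A]
        field_simp
        ring
  have h2 : (((Icc 1 X).filter fun N => V ≤ primeRep 3 5 Λ N - primeRep 3 5 bigPrimes N).card : ℝ)
      ≤ c₂ * D := by
    refine le_of_mul_le_mul_right ?_ hV0
    refine le_trans ?_ ((hPsum hl1).trans ?_)
    · rw [← nsmul_eq_mul, ← sum_const]
      exact (sum_le_sum fun N hN => (mem_filter.1 hN).2).trans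
        (sum_le_sum_of_subset_of_nonneg (filter_subset _ _) fun N _ _ =>
          sub_nonneg.2 (primeRep_bigPrimes_le N))
    · have hsq2 : √(P : ℝ) * l * (L / 6) ^ (2 * A) ≤ K₀ * P := by
        calc √(P : ℝ) * l * (L / 6) ^ (2 * A) ≤ √(P : ℝ) * l * l ^ (2 * A) :=
              mul_le_mul_of_nonneg_left (pow_le_pow_left₀ (by positivity) (by linarith) _)
                (by positivity)
          _ = √(P : ℝ) * l ^ (2 * A + 1) := by ring
          _ ≤ √(P : ℝ) * (K₀ * √(P : ℝ)) :=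
              mul_le_mul_of_nonneg_left (hl ▸ hpow P hPr) (Real.sqrt_nonneg _)
          _ = _ := by rw [mul_left_comm, Real.mul_self_sqrt (by linarith)]
      have hsq3 : √(P : ℝ) * l ≤ K₀ * P * (6 ^ (2 * A) / L ^ (2 * A)) := by
        rw [mul_div_assoc', le_div_iff₀ (by positivity)]
        rw [div_pow, mul_div_assoc', div_le_iff₀ (by positivity)] at hsq2
        exact hsq2
      calc 5 * (6 * (P : ℝ)) ^ 4 * (50 * (√(P : ℝ) * l))
          ≤ 5 * (6 * (P : ℝ)) ^ 4 * (50 * (K₀ * P * (6 ^ (2 * A) / L ^ (2 * A)))) := by gcongr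
        _ = 5 * 6 ^ 4 * 50 * K₀ * 6 ^ (2 * A) * ((P : ℝ) ^ 5 / L ^ (2 * A)) := by ring
        _ ≤ 5 * 6 ^ 4 * 50 * K₀ * 6 ^ (2 * A) * (R ^ 5 / L ^ (2 * A)) := by gcongr
        _ = _ := by
            rw [hc₂, hV, hD, ← hR3, pow_mul' L 2 A]
            field_simp
  linarith [mul_nonneg hJ₀0 hD0]

/-- **Hua's theorem on five cubes**: almost all admissible numbers have the expected number of
representations by cubes of primes above `7`. -/
theorem exists_few_representations : ∃ c : ℝ, 0 < c ∧ ∀ A : ℕ, ∃ C : ℝ, 0 < C ∧ ∀ X : ℕ, 2 ≤ X →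
    (((Icc 1 X).filter fun N : ℕ => (N % 2 = 1 ∧ N % 7 ≠ 0 ∧ N % 9 ≠ 0 ∧ N % 9 ≠ 2 ∧ N % 9 ≠ 7) ∧
      (((Fintype.piFinset fun _ : Fin 5 => Icc 1 N).filter
        fun z => (∀ i, (z i).Prime ∧ 7 < z i) ∧ ∑ i, z i ^ 3 = N).card : ℝ) * Real.log N ^ 5 <
          c * (N : ℝ) ^ (2 / 3 : ℝ)).card : ℝ) ≤ C * (X / Real.log X ^ A) := by
  classical
  obtain ⟨c₁, hc₁, hser⟩ := exists_series_pos
  have hrc := repConst_pos (k := 3) (s := 5) (by norm_num) (by norm_num)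
  refine ⟨c₁ * repConst 3 5 / 2, by positivity, fun A => ?_⟩
  obtain ⟨C, hC, h⟩ := exists_relative_exceptions A (η := c₁ * repConst 3 5 / 4) (by positivity)
  refine ⟨C, hC, fun X hX => le_trans (Nat.cast_le.2 (card_le_card fun N hN => ?_)) (h X hX)⟩
  rw [mem_filter] at hN ⊢
  obtain ⟨hN1, hadm, hlt⟩ := hN
  refine ⟨hN1, ?_⟩
  have hN0 : (0 : ℝ) < (N : ℝ) ^ (2 / 3 : ℝ) :=
    Real.rpow_pos_of_pos (Nat.cast_pos.2 (mem_Icc.1 hN1).1) _
  have hrep : primeRep 3 5 bigPrimes N ≤ (((Fintype.piFinset fun _ : Fin 5 => Icc 1 N).filter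
      fun z => (∀ i, (z i).Prime ∧ 7 < z i) ∧ ∑ i, z i ^ 3 = N).card : ℝ) * Real.log N ^ 5 := by
    rw [primeRep, ← nsmul_eq_mul,
      ← sum_filter_add_sum_filter_not _ (fun z => ∀ i, (z i).Prime ∧ 7 < z i), filter_filter]
    have h0 : ∀ z ∈ ((Fintype.piFinset fun _ : Fin 5 => Icc 1 N).filter
        fun z => ∑ i, z i ^ 3 = N).filter (fun z => ¬ ∀ i, (z i).Prime ∧ 7 < z i),
        ∏ i, bigPrimes (z i) = 0 := fun z hz => by
      obtain ⟨i, hi⟩ := not_forall.1 (mem_filter.1 hz).2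
      exact prod_eq_zero (mem_univ i) (if_neg hi)
    rw [sum_eq_zero h0, add_zero]
    simp only [and_comm (a := ∑ i, _ = N)]
    refine sum_le_card_nsmul _ _ _ fun z hz => ?_
    rw [mem_filter, Fintype.mem_piFinset] at hz
    calc ∏ i, bigPrimes (z i) ≤ ∏ _i : Fin 5, Real.log N :=
          prod_le_prod (fun i _ => bigPrimes_nonneg _) fun i _ =>
            (bigPrimes_le _).trans (vonMangoldt_le_log.trans (Real.log_le_log
              (by exact_mod_cast (mem_Icc.1 (hz.1 i)).1) (Nat.cast_le.2 (mem_Icc.1 (hz.1 i)).2)))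
      _ = _ := by simp
  have hmain : c₁ * repConst 3 5 * (N : ℝ) ^ (2 / 3 : ℝ) ≤ fiveMain N :=
    mul_le_mul_of_nonneg_right (mul_le_mul_of_nonneg_right (hser N hadm) hrc.le) hN0.le
  refine lt_of_lt_of_le ?_ ((neg_le_abs _))
  have := mul_pos (mul_pos hc₁ hrc) hN0
  linarith

end FA.FivePrimeCubes
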