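import Fermat.Agent.WaringGoldbach.Singular
import Fermat.Agent.BurgessComposite.Inequality

/-!
# The singular series for five cubes of primes

`∑_r ‖C_q (r) / φ q‖ ^ 5 = O (A ^ ω q * q ^ (-3/2))`, so the series converges absolutely and
uniformly in `N`. It is bounded below for odd `N` with `N ≢ 0, ±2` modulo `9` and `7 ∤ N`: the
cubes of units are `±1` modulo `9` and `7`, and for the other primes every residue is a sum of five
of them (Cauchy and Davenport).
-/

set_option autoImplicit false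

noncomputable section

namespace FA.FivePrimeCubes

open Finset Filter Topology FA.WaringGoldbach
open FA.ThreePrimes (unitResidues card_unitResidues)
open scoped Pointwise

/-- Odd, `≢ 0, ±2` modulo `9`, `≢ 0` modulo `7`. -/
def IsAdmissible (N : ℕ) : Prop :=
  N % 2 = 1 ∧ N % 7 ≠ 0 ∧ N % 9 ≠ 0 ∧ N % 9 ≠ 2 ∧ N % 9 ≠ 7

theorem localExp_three : localExp 3 3 = 2 := by
  have : Fact (Nat.Prime 3) := ⟨Nat.prime_three⟩
  rw [localExp, padicValNat.self (show 1 < 3 by norm_num),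
    if_neg (fun h => absurd h.1 (by norm_num))]

theorem localExp_three_of_ne {p : ℕ} (hp : p.Prime) (h3 : p ≠ 3) : localExp 3 p = 1 :=
  localExp_of_not_dvd fun h => h3 ((Nat.prime_dvd_prime_iff_eq hp Nat.prime_three).1 h)

theorem primeAbs_five_prime_le {p : ℕ} (hp : p.Prime) :
    primeAbs 3 5 p ≤ 14 ^ 5 * (p : ℝ) ^ (-(3 / 2) : ℝ) := by
  have hp2 : (2 : ℝ) ≤ p := by exact_mod_cast hp.two_le
  have hs : (0 : ℝ) < √(p : ℝ) := Real.sqrt_pos.2 (by linarith)
  refine (sum_le_card_nsmul _ _ ((14 / √(p : ℝ)) ^ 5) fun r hr => ?_).trans ?_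
  · rw [unitResidues, mem_filter] at hr
    refine pow_le_pow_left₀ (norm_nonneg _) ?_ 5
    have h := norm_unitSum_prime_le (show 1 ≤ 3 by norm_num) hp (a := (r : ℤ))
      (by rw [Int.cast_natCast]; exact (ZMod.isUnit_iff_coprime r _).2 hr.2.symm)
    rw [unitFactor, norm_div, Complex.norm_natCast, Nat.totient_prime hp,
      Nat.cast_sub hp.one_le, Nat.cast_one, div_le_div_iff₀ (by linarith) hs]
    have h1 := mul_le_mul_of_nonneg_right h hs.le
    rw [mul_assoc, Real.mul_self_sqrt (show (0 : ℝ) ≤ p by linarith)] at h1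
    push_cast at h1
    linarith
  · rw [nsmul_eq_mul, card_unitResidues, Nat.totient_prime hp]
    have h4 : ((p - 1 : ℕ) : ℝ) ≤ p := Nat.cast_le.2 (Nat.sub_le p 1)
    refine (mul_le_mul_of_nonneg_right h4 (by positivity)).trans (le_of_eq ?_)
    rw [show (-(3 / 2) : ℝ) = 1 + -(1 / 2) * ((5 : ℕ) : ℝ) by norm_num,
      Real.rpow_add (by linarith), Real.rpow_one, Real.rpow_mul (by linarith),
      Real.rpow_natCast, Real.rpow_neg (by linarith), ← Real.sqrt_eq_rpow]
    ring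

theorem primeAbs_five_le : ∀ q : ℕ, 0 < q →
    primeAbs 3 5 q ≤ (14 ^ 5 : ℝ) ^ q.primeFactors.card * (q : ℝ) ^ (-(3 / 2) : ℝ) := by
  intro q
  induction q using Nat.recOnPosPrimePosCoprime with
  | prime_pow p n hp hn =>
    intro _
    rw [Nat.primeFactors_prime_pow hn.ne' hp, card_singleton, pow_one]
    rcases Nat.lt_or_ge (localExp 3 p) n with h | h
    · rw [primeAbs_primePow_eq_zero (by norm_num) (by norm_num) hp h]
      positivity
    rcases eq_or_ne p 3 with rfl | h3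
    · rw [localExp_three] at h
      obtain rfl | rfl : n = 1 ∨ n = 2 := by omega
      · rw [pow_one]
        exact primeAbs_five_prime_le hp
      · refine (primeAbs_le 3 5 _).trans ?_
        norm_num
    · rw [localExp_three_of_ne hp h3] at h
      obtain rfl : n = 1 := by omega
      rw [pow_one]
      exact primeAbs_five_prime_le hp
  | zero => intro h; omega
  | one => intro _; simp [primeAbs_one]
  | coprime a b ha hb hab iha ihb =>
    intro _
    rw [primeAbs_mul 3 5 hab, Nat.Coprime.primeFactors_mul hab,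
      card_union_of_disjoint hab.disjoint_primeFactors, pow_add, Nat.cast_mul,
      Real.mul_rpow (Nat.cast_nonneg a) (Nat.cast_nonneg b), mul_mul_mul_comm]
    exact mul_le_mul (iha (by omega)) (ihb (by omega)) (primeAbs_nonneg 3 5 b) (by positivity)

theorem summable_primeAbs_five : Summable (primeAbs 3 5) := by
  obtain ⟨C, hC, h⟩ := BurgessComposite.exists_pow_card_primeFactors_le (14 ^ 5 : ℝ) (δ := 1 / 4)
    (by norm_num) (by norm_num)
  refine Summable.of_nonneg_of_le (primeAbs_nonneg 3 5) (fun q => ?_)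
    ((Real.summable_nat_rpow.2 (show (-(5 / 4) : ℝ) < -1 by norm_num)).mul_left C)
  rcases Nat.eq_zero_or_pos q with rfl | hq
  · simp [primeAbs, unitResidues]
  · refine (primeAbs_five_le q hq).trans ((mul_le_mul_of_nonneg_right (h q hq.ne')
      (by positivity)).trans (le_of_eq ?_))
    rw [mul_assoc, ← Real.rpow_add (Nat.cast_pos.2 hq)]
    norm_num

theorem summable_primeTerm_five (N : ℕ) : Summable fun q => ‖primeTerm 3 5 N q‖ :=
  Summable.of_nonneg_of_le (fun _ => norm_nonneg _) (norm_primeTerm_le 3 5 N)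
    summable_primeAbs_five

/-- **The tail**, uniform in `N`. -/
theorem exists_series_tail {ε : ℝ} (hε : 0 < ε) : ∃ Q₀ : ℕ, ∀ Q, Q₀ ≤ Q → ∀ N,
    ‖∑ q ∈ Icc 1 Q, primeTerm 3 5 N q - ∑' q, primeTerm 3 5 N q‖ ≤ ε := by
  obtain ⟨Q₀, hQ₀⟩ := eventually_atTop.1 ((tendsto_sum_nat_add (primeAbs 3 5)).eventually
    (eventually_le_nhds hε))
  refine ⟨Q₀, fun Q hQ N => ?_⟩
  have hsm := (summable_primeTerm_five N).of_norm
  have e : ∑ q ∈ Icc 1 Q, primeTerm 3 5 N q = ∑ q ∈ range (Q + 1), primeTerm 3 5 N q := by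
    refine sum_subset (fun q hq => mem_range.2 (by rw [mem_Icc] at hq; omega)) fun q hq hq' => ?_
    rw [mem_range] at hq
    rw [mem_Icc] at hq'
    rw [show q = 0 by omega, primeTerm_zero]
  rw [e, ← hsm.sum_add_tsum_nat_add (Q + 1), sub_add_cancel_left, norm_neg]
  exact (tsum_of_norm_bounded ((summable_nat_add_iff (Q + 1)).2 summable_primeAbs_five).hasSum
    fun i => norm_primeTerm_le 3 5 N _).trans (hQ₀ (Q + 1) (by omega))

/-! ### Positivity -/

/-- Five signs suffice modulo `2`, `7` and `9`. -/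
theorem exists_sign_solution {N q : ℕ} (hN : IsAdmissible N) (hq : q = 2 ∨ q = 7 ∨ q = 9) :
    ∃ z : Fin 5 → ℕ, (∀ i, z i ∈ unitResidues q) ∧
      (q : ℤ) ∣ ((∑ i, z i ^ 3 : ℕ) : ℤ) - N := by
  obtain ⟨h2, h7, h90, h92, h97⟩ := hN
  obtain ⟨j, hj, hd⟩ : ∃ j : ℕ, j ≤ 5 ∧ (q : ℤ) ∣ 5 - 2 * (j : ℤ) - N := by
    rcases hq with rfl | rfl | rfl
    · exact ⟨0, by omega, by omega⟩
    · obtain h | h | h | h | h | h : N % 7 = 5 ∨ N % 7 = 3 ∨ N % 7 = 1 ∨ N % 7 = 6 ∨ N % 7 = 4 ∨
          N % 7 = 2 := by omega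
      exacts [⟨0, by omega, by omega⟩, ⟨1, by omega, by omega⟩, ⟨2, by omega, by omega⟩,
        ⟨3, by omega, by omega⟩, ⟨4, by omega, by omega⟩, ⟨5, by omega, by omega⟩]
    · obtain h | h | h | h | h | h : N % 9 = 5 ∨ N % 9 = 3 ∨ N % 9 = 1 ∨ N % 9 = 8 ∨ N % 9 = 6 ∨
          N % 9 = 4 := by omega
      exacts [⟨0, by omega, by omega⟩, ⟨1, by omega, by omega⟩, ⟨2, by omega, by omega⟩,
        ⟨3, by omega, by omega⟩, ⟨4, by omega, by omega⟩, ⟨5, by omega, by omega⟩]
  have hq1 : 1 < q := by omega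
  have hneg : q - 1 ∈ unitResidues q ∧ 1 ∈ unitResidues q := by
    rcases hq with rfl | rfl | rfl <;> decide
  refine ⟨fun i => if i.val < j then q - 1 else 1, fun i => ?_, ?_⟩
  · dsimp only
    split_ifs
    exacts [hneg.1, hneg.2]
  · rw [← ZMod.intCast_zmod_eq_zero_iff_dvd] at hd ⊢
    push_cast at hd ⊢
    refine Eq.trans ?_ hd
    congr 1
    have h1 : ((q - 1 : ℕ) : ZMod q) = -1 := by
      rw [Nat.cast_sub hq1.le, ZMod.natCast_self, Nat.cast_one, zero_sub]
    interval_cases j <;> simp [Fin.sum_univ_succ, h1] <;> ring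

/-- Five cubes of units modulo the other primes. -/
theorem exists_five_cubes {p : ℕ} (hp : p.Prime) (h5 : 5 ≤ p) (h7 : p ≠ 7) (n : ZMod p) :
    ∃ x : Fin 5 → ZMod p, (∀ i, x i ≠ 0) ∧ ∑ i, x i ^ 3 = n := by
  classical
  have : Fact p.Prime := ⟨hp⟩
  refine exists_of_mem_powSums ?_
  obtain ⟨A, hA⟩ : ∃ A,
      A = ((univ : Finset (ZMod p)).filter fun x => x ≠ 0).image (fun x => x ^ 3) := ⟨_, rfl⟩
  have hA3 : p - 1 ≤ 3 * A.card := by
    refine le_trans (le_of_eq ?_) (card_le_mul_card_image (n := 3)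
      ((univ : Finset (ZMod p)).filter fun x => x ≠ 0) (f := fun x => x ^ 3) fun b _ => ?_) |>.trans
      (le_of_eq (by rw [hA]))
    · rw [filter_ne', card_erase_of_mem (mem_univ _), card_univ, ZMod.card]
    · exact (card_le_card (filter_subset_filter _ (filter_subset _ _))).trans
        (WaringAsymptotic.card_pow_eq_le (by norm_num) b)
  have hAne : A.Nonempty := card_pos.1 (by omega)
  have key : ∀ i, min p (i * (A.card - 1) + 1) ≤ (powSums p 3 i).card ∧
      (powSums p 3 i).Nonempty := by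
    intro i
    induction i with
    | zero => simp [powSums]
    | succ i ih =>
      have hne : (powSums p 3 (i + 1)).Nonempty := by
        rw [powSums, ← hA]
        exact hAne.add ih.2
      refine ⟨?_, hne⟩
      have h := ZMod.cauchy_davenport hp hAne ih.2
      rw [powSums, ← hA, Nat.succ_mul]
      have := hAne.card_pos
      omega
  have hfull : powSums p 3 5 = univ := by
    refine eq_univ_of_card _ ?_
    rw [ZMod.card]
    have := (key 5).1
    have h1 : (powSums p 3 5).card ≤ p := by simpa using card_le_univ (powSums p 3 5)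
    have h6 : p ≠ 6 := fun h => absurd (h ▸ hp) (by decide)
    have h8 : p ≠ 8 := fun h => absurd (h ▸ hp) (by decide)
    omega
  exact hfull ▸ mem_univ n

theorem exists_local_solution {N : ℕ} (hN : IsAdmissible N) {p : ℕ} (hp : p.Prime) :
    ∃ z : Fin 5 → ℕ, (∀ i, z i ∈ unitResidues (p ^ localExp 3 p)) ∧
      ((p ^ localExp 3 p : ℕ) : ℤ) ∣ ((∑ i, z i ^ 3 : ℕ) : ℤ) - N := by
  rcases eq_or_ne p 3 with rfl | h3
  · rw [localExp_three]
    exact exists_sign_solution hN (Or.inr (Or.inr rfl))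
  rw [localExp_three_of_ne hp h3, pow_one]
  by_cases h27 : p = 2 ∨ p = 7
  · exact exists_sign_solution hN (by omega)
  push Not at h27
  have h5 : 5 ≤ p := by
    have := hp.two_le
    have : p ≠ 4 := fun h => absurd (h ▸ hp) (by decide)
    omega
  have : NeZero p := ⟨hp.ne_zero⟩
  obtain ⟨x, hx0, hx⟩ := exists_five_cubes hp h5 h27.2 (N : ZMod p)
  refine ⟨fun i => (x i).val, fun i => ?_, ?_⟩
  · rw [unitResidues, mem_filter, mem_range, hp.coprime_iff_not_dvd]
    refine ⟨ZMod.val_lt _, fun hd => hx0 i ?_⟩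
    rw [← ZMod.natCast_zmod_val (x i), ZMod.natCast_eq_zero_iff]
    exact hd
  · rw [← ZMod.intCast_zmod_eq_zero_iff_dvd]
    push_cast
    simp [hx]

/-- The local factors. -/
theorem primeDensity_spec_five {N : ℕ} (hN : IsAdmissible N) {p : ℕ} (hp : p.Prime) :
    ∃ v : ℝ, primeDensity 3 5 N p = v ∧
      ((p ^ localExp 3 p : ℕ) : ℝ) / ((p ^ localExp 3 p).totient : ℝ) ^ 5 ≤ v ∧
      1 - 2 * 14 ^ 5 * (p : ℝ) ^ (-(3 / 2) : ℝ) ≤ v := by
  obtain ⟨z, hz, hzN⟩ := exists_local_solution hN hp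
  have e := (primeDensity_eq (by norm_num) (by norm_num) N hp).trans
    ((sum_primeSummand_primePow hp 3 5 N (localExp 3 p)).symm.trans
      (sum_primeSummand_eq 3 5 N (pow_pos hp.pos _)))
  refine ⟨_, e, div_le_div_of_nonneg_right (le_mul_of_one_le_right (Nat.cast_nonneg _) ?_)
    (by positivity), ?_⟩
  · rw [Nat.one_le_cast, Finset.one_le_card]
    exact ⟨z, mem_filter.2 ⟨Fintype.mem_piFinset.2 hz, hzN⟩⟩
  · have h1 := congrArg Complex.re
      ((primeDensity_eq (by norm_num) (by norm_num) N hp).symm.trans e)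
    simp only [Complex.re_sum, Complex.ofReal_re] at h1
    rw [sum_range_succ', pow_zero, primeTerm_one, Complex.one_re] at h1
    have b4 : -∑ l ∈ range (localExp 3 p), primeAbs 3 5 (p ^ (l + 1)) ≤
        ∑ l ∈ range (localExp 3 p), (primeTerm 3 5 N (p ^ (l + 1))).re := by
      rw [← sum_neg_distrib]
      exact sum_le_sum fun l _ =>
        (abs_le.1 ((Complex.abs_re_le_norm _).trans (norm_primeTerm_le 3 5 N _))).1
    have b3 : ∑ l ∈ range (localExp 3 p), primeAbs 3 5 (p ^ (l + 1)) ≤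
        2 * (14 ^ 5 * (p : ℝ) ^ (-(3 / 2) : ℝ)) := by
      have hl2 : localExp 3 p ≤ 2 := by
        rcases eq_or_ne p 3 with rfl | h3
        · rw [localExp_three]
        · rw [localExp_three_of_ne hp h3]; norm_num
      have h0 : 0 ≤ 14 ^ 5 * (p : ℝ) ^ (-(3 / 2) : ℝ) := by positivity
      refine (sum_le_card_nsmul _ _ (14 ^ 5 * (p : ℝ) ^ (-(3 / 2) : ℝ)) fun l _ => ?_).trans ?_
      · refine (primeAbs_five_le _ (pow_pos hp.pos _)).trans ?_
        rw [Nat.primeFactors_prime_pow l.succ_ne_zero hp, card_singleton, pow_one]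
        refine mul_le_mul_of_nonneg_left (Real.rpow_le_rpow_of_nonpos (Nat.cast_pos.2 hp.pos)
          (Nat.cast_le.2 (Nat.le_self_pow l.succ_ne_zero p)) (by norm_num)) (by norm_num)
      · rw [card_range, nsmul_eq_mul]
        exact mul_le_mul_of_nonneg_right (by exact_mod_cast hl2) h0
    linarith

/-- **The singular series is bounded below.** -/
theorem exists_series_pos : ∃ c : ℝ, 0 < c ∧ ∀ N, IsAdmissible N → c ≤ primeSeries 3 5 N := by
  obtain ⟨a, ha⟩ : ∃ a : ℕ → ℝ, a = fun p : ℕ => 2 * 14 ^ 5 * (p : ℝ) ^ (-(3 / 2) : ℝ) :=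
    ⟨_, rfl⟩
  have hasum : Summable a := ha ▸ (Real.summable_nat_rpow.2 (by norm_num)).mul_left _
  have ha0 : ∀ p, 0 ≤ a p := fun p => by rw [ha]; positivity
  obtain ⟨p₀, hp₀⟩ := ((tendsto_sum_nat_add a).eventually
    (eventually_le_nhds (show (0 : ℝ) < 1 / 2 by norm_num))).exists
  obtain ⟨m, hm⟩ : ∃ m : ℕ → ℝ, m = fun p : ℕ =>
      ((p ^ localExp 3 p : ℕ) : ℝ) / ((p ^ localExp 3 p).totient : ℝ) ^ 5 := ⟨_, rfl⟩
  have hm0 : ∀ p ∈ Nat.primesBelow p₀, 0 < m p := fun p hp => by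
    have h1 := pow_pos (Nat.mem_primesBelow.1 hp).2.pos (localExp 3 p)
    have h2 := Nat.totient_pos.2 h1
    rw [hm]
    exact div_pos (Nat.cast_pos.2 h1) (pow_pos (Nat.cast_pos.2 h2) 5)
  refine ⟨(∏ p ∈ Nat.primesBelow p₀, m p) * (1 / 2), mul_pos (prod_pos hm0) (by norm_num),
    fun N hN => ?_⟩
  have hE := EulerProduct.eulerProduct (f := primeTerm 3 5 N) (primeTerm_one 3 5 N)
    (fun h => primeTerm_mul 3 5 N h) (summable_primeTerm_five N) (primeTerm_zero 3 5 N)
  refine ge_of_tendsto ((Complex.continuous_re.tendsto _).comp hE)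
    (eventually_atTop.2 ⟨p₀, fun n hn => ?_⟩)
  obtain ⟨S, hS⟩ : ∃ S, S = Nat.primesBelow n := ⟨_, rfl⟩
  obtain ⟨d, hd⟩ : ∃ d : ℕ → ℝ, d = fun p => (primeDensity 3 5 N p).re := ⟨_, rfl⟩
  have hspec : ∀ p, p.Prime → primeDensity 3 5 N p = (d p : ℂ) ∧ m p ≤ d p ∧ 1 - a p ≤ d p := by
    intro p hp
    obtain ⟨v, hv, h1, h2⟩ := primeDensity_spec_five hN hp
    have : d p = v := by rw [hd]; simp [hv]
    rw [this, hm, ha]
    exact ⟨hv, h1, h2⟩
  have hreal : ∏ p ∈ S, ∑' e, primeTerm 3 5 N (p ^ e) = ((∏ p ∈ S, d p : ℝ) : ℂ) := by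
    rw [Complex.ofReal_prod]
    exact prod_congr rfl fun p hp => (hspec p (Nat.mem_primesBelow.1 (hS ▸ hp)).2).1
  simp only [Function.comp, ← hS, hreal, Complex.ofReal_re]
  have hlow : S.filter (fun p => p < p₀) = Nat.primesBelow p₀ := by
    ext p
    simp only [hS, mem_filter, Nat.mem_primesBelow]
    exact ⟨fun h => ⟨h.2, h.1.2⟩, fun h => ⟨⟨h.1.trans_le hn, h.2⟩, h.1⟩⟩
  rw [← prod_filter_mul_prod_filter_not S (fun p => p < p₀), hlow]
  have hsum : ∑ p ∈ S.filter (fun p => ¬p < p₀), a p ≤ 1 / 2 := by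
    refine le_trans ?_ hp₀
    refine (sum_le_sum_of_subset_of_nonneg (t := Ico p₀ n) (fun p hp => ?_)
      fun p _ _ => ha0 p).trans ?_
    · rw [hS, mem_filter, Nat.mem_primesBelow] at hp
      exact mem_Ico.2 ⟨not_lt.1 hp.2, hp.1.1⟩
    · rw [sum_Ico_eq_sum_range]
      simp only [add_comm p₀]
      exact ((summable_nat_add_iff p₀).2 hasum).sum_le_tsum _ fun i _ => ha0 _
  refine mul_le_mul (prod_le_prod (fun p hp => (hm0 p hp).le)
    fun p hp => (hspec p (Nat.mem_primesBelow.1 hp).2).2.1) ?_ (by norm_num)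
    (prod_nonneg fun p hp =>
      le_trans (hm0 p hp).le (hspec p (Nat.mem_primesBelow.1 hp).2).2.1)
  have hle1 : ∀ p ∈ S.filter (fun p => ¬p < p₀), a p ≤ 1 := fun p hp =>
    ((single_le_sum (fun q _ => ha0 q) hp).trans hsum).trans (by norm_num)
  refine le_trans (by linarith) ((WaringAsymptotic.one_sub_sum_le_prod _ a (fun p _ => ha0 p)
    hle1).trans (prod_le_prod (fun p hp => sub_nonneg.2 (hle1 p hp)) fun p hp => ?_))
  exact (hspec p (Nat.mem_primesBelow.1 (hS ▸ (mem_filter.1 hp).1)).2).2.2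

end FA.FivePrimeCubes
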